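import Fermat.Agent.MordellSurface.Torsion

/-!
# The rank of `y² = x³ + f`

A squarefree `f` leaves no point of the curve on the cusp of a fibre, so `x - θ` has even order at
every place of `k(T, f^{1/3})` and the rank is at most `12 m - 4`.
-/

set_option autoImplicit false
set_option linter.unusedSectionVars false
set_option linter.style.haveILetI false

noncomputable section

universe u

open Polynomial AlgebraicCurve WeierstrassCurve FA.Curve FA.ModField FA.FunctionFieldMW
open FA.FullTwoTorsionRank (linPrime weightAt weightAt_some)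
open FA.CubicDescentRank
open scoped Classical

namespace FA.MordellSurface

variable {k : Type u} [Field k] [IsAlgClosed k] [CharZero k] {B : k[X]} {m : ℕ}

theorem pCoef_zero : pCoef k 0 = 0 := by simp [pCoef]

variable [Fact (Irreducible (cubicPoly (pCoef k 0) (qCoef k B)))]

/-- **The orders of `x - θ` are even.** -/
theorem even_ord_sub_theta (hB : B.natDegree ≤ 6 * m) (hsq : Squarefree B)
    (hdeg : 6 * m ≤ B.natDegree + 1) {x y : RatFunc k} (h : y ^ 2 = x ^ 3 + qCoef k B)
    (w : Place k (cubicField (pCoef k 0) (qCoef k B))) :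
    Even (w.ord (algebraMap (RatFunc k) (cubicField (pCoef k 0) (qCoef k B)) x -
      theta (pCoef k 0) (qCoef k B))) := by
  set L := cubicField (pCoef k 0) (qCoef k B)
  set θ : L := theta (pCoef k 0) (qCoef k B)
  set φ := algebraMap (RatFunc k) L
  have hθ : θ ^ 3 + φ (qCoef k B) = 0 := by
    have e := theta_equation (pCoef k 0) (qCoef k B)
    rwa [show algebraMap (RatFunc k) L (pCoef k 0) = 0 from
        (congrArg (algebraMap (RatFunc k) L) pCoef_zero).trans (map_zero _), zero_mul,
      add_zero] at e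
  obtain ⟨o, e, he, -, -, hord⟩ := exists_below (isFunctionField_cubicField (A := 0) (B := B)) w
  have hθ' : AtLeast w (e * (2 * twoShift m o)) θ := atLeast_theta he hord (by simp) hB
  set c := twoShift m o with hc
  set a := φ x - θ with ha
  set b := a ^ 2 + 3 * θ * a + 3 * θ ^ 2 with hb
  have ha0 : a ≠ 0 := sub_theta_ne_zero x
  have hab : a * b = φ y ^ 2 := by
    rw [← map_pow, h, map_add, map_pow, ha, hb]
    linear_combination -hθ
  have h3θ : ∀ {d : ℤ} {z : L}, AtLeast w d z → AtLeast w d (3 * z) := fun {d z} hz => by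
    have := hz.smul (3 : k)
    rwa [map_ofNat] at this
  have hsum : b ≠ 0 → Even (w.ord a + w.ord b) := fun hb0 => by
    have hy0 : φ y ≠ 0 := fun e' => mul_ne_zero ha0 hb0 (by rw [hab, e', zero_pow two_ne_zero])
    rw [← w.ord_mul ha0 hb0, hab, place_ord_pow]
    exact even_two_mul _
  have hfθ : AtLeast w (e * (4 * c)) (3 * θ ^ 2) :=
    (h3θ (atLeast_pow hθ' 2)).mono (by push_cast; linarith)
  rcases lt_trichotomy (w.ord a) (e * (2 * c)) with hlt | heq | hgt
  · have hrest : AtLeast w (w.ord (a ^ 2) + 1) (3 * θ * a + 3 * θ ^ 2) := by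
      rw [place_ord_pow]
      refine AtLeast.add (((h3θ hθ').mul (atLeast_ord a)).mono ?_) (hfθ.mono ?_) <;>
        push_cast <;> nlinarith
    obtain ⟨hne, hord2⟩ := ord_add_eq_left (pow_ne_zero 2 ha0) hrest
    rw [← add_assoc] at hne hord2
    have := hsum hne
    rw [hb, hord2, place_ord_pow] at this
    exact (Int.even_add.1 this).2 (by push_cast; exact even_two_mul _)
  · rw [heq, show e * (2 * c) = 2 * (e * c) by ring]
    exact even_two_mul _
  have h1 : AtLeast w (e * (2 * c) + 1) a := Or.inr (by omega)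
  have hfirst : AtLeast w (e * (4 * c) + 1) (a ^ 2 + 3 * θ * a) := by
    refine AtLeast.add ((atLeast_pow h1 2).mono ?_) (((h3θ hθ').mul h1).mono ?_) <;>
      push_cast <;> nlinarith
  by_cases hf : AtLeast w (e * (4 * c) + 1) (3 * θ ^ 2)
  swap
  · rw [AtLeast, not_or, not_le] at hf
    have hfo : w.ord (3 * θ ^ 2) = e * (4 * c) := by
      have := (atLeast_iff hf.1).1 hfθ
      omega
    obtain ⟨hne, hord2⟩ := ord_add_eq_left hf.1 (hfirst.mono (by rw [hfo]))
    rw [add_comm] at hne hord2
    have := hsum hne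
    rw [hb, hord2, hfo] at this
    exact (Int.even_add.1 this).2 ⟨e * (2 * c), by ring⟩
  exfalso
  have hy : AtLeast w (e * (3 * c + 1)) (φ y) := by
    refine atLeast_jump he hord ?_
    rcases eq_or_ne (φ y) 0 with e' | e'
    · exact Or.inl e'
    · refine Or.inr ?_
      have h2 := h1.mul (hfirst.add hf)
      rw [hab, atLeast_iff (pow_ne_zero 2 e'), place_ord_pow] at h2
      push_cast at h2
      linarith
  have hθ1 : AtLeast w (e * (2 * c) + 1) θ := by
    rcases eq_or_ne θ 0 with e' | e'
    · exact Or.inl e'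
    · refine Or.inr ?_
      have h3 : (3 : L) ≠ 0 := fun e3 => (three_ne_zero (α := k))
        ((algebraMap k L).injective (by rw [map_ofNat, map_zero]; exact e3))
      rw [atLeast_iff (mul_ne_zero h3 (pow_ne_zero 2 e')), w.ord_mul h3 (pow_ne_zero 2 e'),
        place_ord_pow, show (3 : L) = algebraMap k L 3 from (map_ofNat _ 3).symm,
        place_ord_algebraMap] at hf
      push_cast at hf
      linarith
  have hx : AtLeast w (e * (2 * c + 1)) (φ x) := by
    refine atLeast_jump he hord ?_
    have := h1.add hθ1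
    rwa [ha, sub_add_cancel] at this
  have hB0 : B ≠ 0 := hsq.ne_zero
  have hC : algebraMap k L (-54) ≠ 0 := (_root_.map_ne_zero _).2 (by norm_num)
  have hne := RatFunc.algebraMap_ne_zero (K := k) hB0
  have hbig : AtLeast w (e * (6 * c + 2))
      (algebraMap k L (-54) * φ (algebraMap k[X] (RatFunc k) B)) := by
    rw [show algebraMap k L (-54) * φ (algebraMap k[X] (RatFunc k) B) = φ (qCoef k B) by
        simp only [qCoef, map_mul, map_neg, map_ofNat],
      show φ (qCoef k B) = φ y ^ 2 - φ x ^ 3 by rw [← map_pow, h, map_add, map_pow]; ring]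
    refine AtLeast.sub ((atLeast_pow hy 2).mono ?_) ((atLeast_pow hx 3).mono ?_) <;>
      push_cast <;> nlinarith
  rw [atLeast_iff (mul_ne_zero hC ((_root_.map_ne_zero _).2 hne)),
    w.ord_mul hC ((_root_.map_ne_zero _).2 hne), place_ord_algebraMap, zero_add, hord _ hne] at hbig
  have hbig' : 6 * c + 2 ≤ -weightAt o (algebraMap k[X] (RatFunc k) B) :=
    le_of_mul_le_mul_left hbig he
  cases o with
  | some t =>
    rw [weightAt_some, neg_neg, FA.FunctionFieldRank.ordAt_algebraMap, hc] at hbig'
    simp only [twoShift, linPrime] at hbig'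
    rw [← FA.FunctionFieldRank.rootMultiplicity_eq_expAt hB0] at hbig'
    refine not_isUnit_X_sub_C t (hsq _ ?_)
    rw [← sq]
    exact (le_rootMultiplicity_iff hB0).1 (by omega)
  | none =>
    simp only [weightAt, Option.map_none, FA.FunctionFieldRank.placeWeight,
      RatFunc.intDegree_polynomial, hc, twoShift] at hbig'
    omega

/-- **The doubles have index at most `2 ^ (2 g)`.** -/
theorem index_doubles_le (hB : B.natDegree ≤ 6 * m) (hsq : Squarefree B)
    (hdeg : 6 * m ≤ B.natDegree + 1) [(cubicCurve 0 (pCoef k 0) (qCoef k B)).IsElliptic] :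
    (nsmulAddMonoidHom (α := (cubicCurve 0 (pCoef k 0) (qCoef k B)).toAffine.Point) 2).range.index ≠ 0 ∧
      (nsmulAddMonoidHom (α := (cubicCurve 0 (pCoef k 0) (qCoef k B)).toAffine.Point) 2).range.index ≤
        2 ^ (2 * genus k (cubicField (pCoef k 0) (qCoef k B))) := by
  set L := cubicField (pCoef k 0) (qCoef k B)
  have hF : IsFunctionField k L := isFunctionField_cubicField
  have h2 : (2 : RatFunc k) ≠ 0 := FA.NeronSpecialisation.two_ne_zero_ratFunc (two_ne_zero (α := k))
  set G := (cubicCurve 0 (pCoef k 0) (qCoef k B)).toAffine.Point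
  set D := (nsmulAddMonoidHom (α := G) 2).range
  obtain ⟨cl, hcl⟩ := exists_classMap hF
  have hrep : ∀ P : G, ∃ z : {z : L // z ≠ 0 ∧ ∀ v : Place k L, Even (v.ord z)},
      thetaClass three_ne_zero_ratFunc P = sqFun L z.1 := fun P => by
    rcases P with _ | ⟨x, y, h⟩
    · refine ⟨⟨1, one_ne_zero, fun v => ⟨0, by simp⟩⟩, (map_zero _).trans ?_⟩
      have h1 := isParity_sqFun (L := L) (x := 1) (y := 1) one_ne_zero one_ne_zero
      rw [mul_one, sqClass_add_self] at h1
      exact h1.symm
    · refine ⟨⟨_, sub_theta_ne_zero x, even_ord_sub_theta hB hsq hdeg (y := y) ?_⟩,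
        thetaClass_some _ h⟩
      have e := cubicCurve_equation.1 h.1
      linear_combination e + x * (pCoef_zero (k := k))
  choose z hz using hrep
  let F : G ⧸ D → Pic0.torsion k L 2 := fun q => cl (z q.out)
  have hinj : Function.Injective F := fun q q' hqq => by
    rw [← Quotient.out_eq q, ← Quotient.out_eq q']
    refine QuotientAddGroup.eq.2 (exists_half_of_thetaClass h2 three_ne_zero_ratFunc
      (P := -q.out + q'.out) ?_)
    rw [map_add, map_neg, hz, hz, hcl _ _ hqq]
    exact (neg_add_eq_zero (a := sqFun L (z q'.out).1) (b := sqFun L (z q'.out).1)).2 rfl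
  have hcard := FA.PicTors.natCard_torsion_of_functionField FA.PicTors.countComplex hF 2 two_ne_zero
  haveI : Finite (Pic0.torsion k L 2) := Nat.finite_of_card_ne_zero (by rw [hcard]; positivity)
  haveI : Finite (G ⧸ D) := Finite.of_injective F hinj
  exact ⟨Nat.card_pos.ne', (Nat.card_le_card_of_injective F hinj).trans hcard.le⟩

omit [Fact (Irreducible (cubicPoly (pCoef k 0) (qCoef k B)))]

/-- The curve in the form of the cubic descent. -/
theorem mordellRat_eq : mordellRat (-54 * B) = cubicCurve 0 (pCoef k 0) (qCoef k B) := by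
  rw [pCoef_zero]; rfl

/-- **The rank is at most `12 m - 4`.** -/
theorem rank_le {f : k[X]} (hm : 0 < m) (hf : f.natDegree ≤ 6 * m) (hsq : Squarefree f)
    (hdeg : 6 * m ≤ f.natDegree + 1) :
    Module.finrank ℤ (mordellRat f).toAffine.Point + 4 ≤ 12 * m := by
  have hd : 0 < f.natDegree := by omega
  obtain ⟨B, rfl⟩ : ∃ B, f = -54 * B := ⟨Polynomial.C (-54 : k)⁻¹ * f, by
    rw [show (-54 : k[X]) = Polynomial.C (-54 : k) by rw [map_neg, map_ofNat], ← mul_assoc, ← map_mul,
      mul_inv_cancel₀ (by norm_num), map_one, one_mul]⟩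
  haveI : NeZero ((54 : ℕ) : k) := ⟨by norm_num⟩
  have he : (-54 * B).natDegree = B.natDegree := by exact_mod_cast natDegree_num_mul 54 B
  have hBsq : Squarefree B := hsq.squarefree_of_dvd (dvd_mul_left B (-54))
  haveI : Fact (Irreducible (cubicPoly (pCoef k 0) (qCoef k B))) := ⟨irreducible_cubicPoly fun r hr => by
    refine not_root_of_squarefree hsq hd (by norm_num : 2 ≤ 3) (-r) ?_
    show (-r) ^ 3 = qCoef k B
    linear_combination -hr + r * (pCoef_zero (k := k))⟩
  haveI := isElliptic_mordellRat hsq.ne_zero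
  haveI := fg_points hsq hd
  haveI : (cubicCurve 0 (pCoef k 0) (qCoef k B)).IsElliptic :=
    mordellRat_eq (B := B) ▸ (inferInstance : (mordellRat (-54 * B)).IsElliptic)
  obtain ⟨hi0, hi⟩ := index_doubles_le (B := B) (m := m) (he ▸ hf) hBsq (he ▸ hdeg)
  rw [← mordellRat_eq (B := B)] at hi0 hi
  letI : AddCommGroup (mordellRat (-54 * B)).toAffine.Point := inferInstance
  haveI : Subsingleton (AddCommGroup.torsion (mordellRat (-54 * B)).toAffine.Point) :=
    ⟨fun a b => Subtype.ext ((torsion_free hsq hd ((AddCommGroup.mem_torsion _).1 a.2)).trans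
      (torsion_free hsq hd ((AddCommGroup.mem_torsion _).1 b.2)).symm)⟩
  haveI : Nonempty {t : AddCommGroup.torsion (mordellRat (-54 * B)).toAffine.Point // 2 • t = 0} :=
    ⟨⟨0, nsmul_zero 2⟩⟩
  have h := (Nat.le_mul_of_pos_left _ Nat.card_pos).trans
    ((FA.TwoDescent.card_two_mul_le_index hi0).trans hi)
  have h' := (Nat.pow_le_pow_iff_right one_lt_two).1 h
  have hg := genus_le (A := (0 : k[X])) (B := B) (m := m) (by simp) (he ▸ hf)
  omega

end FA.MordellSurface
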