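import Fermat.Agent.MordellSurface.Descent
import Mathlib.RingTheory.RootsOfUnity.AlgebraicallyClosed

/-!
# Eight independent points on `y² = x³ + T⁶ + 1`

The substitution `T ↦ ζ T` and `x ↦ ω x` act on the points; four explicit points are eigenvectors
with the eigenvalues `ω, -1, ω², -ω²`, so they are independent over `ℤ[ω]`.
-/

set_option autoImplicit false
set_option linter.unusedSectionVars false
set_option linter.style.haveILetI false

noncomputable section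

open Polynomial WeierstrassCurve FA.FunctionFieldMW
open FA.FunctionFieldRank (pointMap pointMap_some)
open scoped Classical

namespace FA.MordellSurface

/-- `(a + b Ω) x = 0` forces `x = 0` when there is no torsion and `Ω² + Ω + 1 = 0`. -/
theorem eq_zero_of_omega {G : Type*} [AddCommGroup G] (htf : ∀ x : G, IsOfFinAddOrder x → x = 0)
    (Ω : G →+ G) (hΩ : ∀ x, Ω (Ω x) + Ω x + x = 0) {a b : ℤ} (hab : a ≠ 0 ∨ b ≠ 0) {x : G}
    (h : a • x + b • Ω x = 0) : x = 0 := by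
  have h' := congrArg Ω h
  rw [map_add, map_zsmul, map_zsmul, map_zero,
    show Ω (Ω x) = -Ω x - x from eq_sub_of_add_eq (eq_neg_of_add_eq_zero_left
      (show Ω (Ω x) + x + Ω x = 0 by rw [← hΩ x]; abel)) |>.trans (by abel)] at h'
  have h1 : (a * a - a * b + b * b) • x = 0 := by
    have e : (a - b) • (a • x + b • Ω x) - b • (a • Ω x + b • (-Ω x - x)) =
        (a * a - a * b + b * b) • x := by
      simp only [smul_add, smul_sub, smul_neg, sub_smul, add_smul, mul_smul]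
      rw [smul_comm b a x, smul_comm b a (Ω x)]
      abel
    rw [← e, h, h', smul_zero, smul_zero, sub_zero]
  refine htf x (isOfFinAddOrder_iff_zsmul_eq_zero.2 ⟨_, ?_, h1⟩)
  intro e
  have ha : a = 0 := by nlinarith [sq_nonneg (a - b), sq_nonneg a, sq_nonneg b]
  have hb : b = 0 := by nlinarith [sq_nonneg (a - b), sq_nonneg a, sq_nonneg b]
  rcases hab with h | h
  exacts [h ha, h hb]

/-- Four eigenvectors with the eigenvalues `ω, -1, ω², -ω²` give eight independent elements. -/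
theorem linearIndependent_eigen {G : Type*} [AddCommGroup G]
    (htf : ∀ x : G, IsOfFinAddOrder x → x = 0) (σ Ω : G →+ G) (hcomm : ∀ x, σ (Ω x) = Ω (σ x))
    (hΩ : ∀ x, Ω (Ω x) + Ω x + x = 0) {v₁ v₂ v₃ v₄ : G}
    (h₁ : σ v₁ = Ω v₁) (h₂ : σ v₂ = -v₂) (h₃ : σ v₃ = Ω (Ω v₃)) (h₄ : σ v₄ = -Ω (Ω v₄))
    (n₁ : v₁ ≠ 0) (n₂ : v₂ ≠ 0) (n₃ : v₃ ≠ 0) (n₄ : v₄ ≠ 0) :
    LinearIndependent ℤ ![v₁, Ω v₁, v₂, Ω v₂, v₃, Ω v₃, v₄, Ω v₄] := by
  rw [Fintype.linearIndependent_iff]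
  intro g hg
  rw [Fin.sum_univ_eight] at hg
  change g 0 • v₁ + g 1 • Ω v₁ + g 2 • v₂ + g 3 • Ω v₂ + g 4 • v₃ + g 5 • Ω v₃ + g 6 • v₄ +
    g 7 • Ω v₄ = 0 at hg
  set w₁ := g 0 • v₁ + g 1 • Ω v₁ with hw₁
  set w₂ := g 2 • v₂ + g 3 • Ω v₂ with hw₂
  set w₃ := g 4 • v₃ + g 5 • Ω v₃ with hw₃
  set w₄ := g 6 • v₄ + g 7 • Ω v₄ with hw₄
  have s₁ : σ w₁ = Ω w₁ := by simp only [hw₁, map_add, map_zsmul, hcomm, h₁]
  have s₂ : σ w₂ = -w₂ := by
    simp only [hw₂, map_add, map_zsmul, hcomm, h₂, map_neg, smul_neg, neg_add]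
  have s₃ : σ w₃ = Ω (Ω w₃) := by simp only [hw₃, map_add, map_zsmul, hcomm, h₃]
  have s₄ : σ w₄ = -Ω (Ω w₄) := by
    simp only [hw₄, map_add, map_zsmul, hcomm, h₄, map_neg, smul_neg, neg_add]
  have h3 : ∀ x, Ω (Ω (Ω x)) = x := fun x => by
    have a := hΩ (Ω x)
    have b := hΩ x
    calc Ω (Ω (Ω x)) = (Ω (Ω (Ω x)) + Ω (Ω x) + Ω x) - (Ω (Ω x) + Ω x + x) + x := by abel
      _ = x := by rw [a, b]; abel
  have e0 : w₁ + w₂ + w₃ + w₄ = 0 := by
    rw [← hg, hw₁, hw₂, hw₃, hw₄]; abel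
  have e1 : Ω w₁ - w₂ + Ω (Ω w₃) - Ω (Ω w₄) = 0 := by
    have h := congrArg σ e0
    simp only [map_add, map_zero, s₁, s₂, s₃, s₄] at h
    rw [← h]; abel
  have e2 : Ω (Ω w₁) + w₂ + Ω w₃ + Ω w₄ = 0 := by
    have h := congrArg σ e1
    simp only [map_add, map_sub, map_zero, hcomm, s₁, s₂, s₃, s₄, map_neg, h3] at h
    rw [← h]; abel
  have e3 : w₁ - w₂ + w₃ - w₄ = 0 := by
    have h := congrArg σ e2
    simp only [map_add, map_zero, hcomm, s₁, s₂, s₃, s₄, map_neg, h3] at h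
    rw [← h]; abel
  have e13 : w₁ + w₃ = 0 := htf _ (isOfFinAddOrder_iff_zsmul_eq_zero.2 ⟨2, two_ne_zero, by
    calc (2 : ℤ) • (w₁ + w₃) = (w₁ + w₂ + w₃ + w₄) + (w₁ - w₂ + w₃ - w₄) := by abel
      _ = 0 := by rw [e0, e3, add_zero]⟩)
  have e3' : w₃ = -w₁ := eq_neg_of_add_eq_zero_right e13
  have e4' : w₄ = -w₂ := by
    refine eq_neg_of_add_eq_zero_right ?_
    calc w₂ + w₄ = (w₁ + w₂ + w₃ + w₄) - (w₁ + w₃) := by abel
      _ = 0 := by rw [e0, e13, sub_zero]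
  rw [e3', e4'] at e1 e2
  simp only [map_neg] at e1 e2
  have k₁ : (1 : ℤ) • w₁ + (2 : ℤ) • Ω w₁ + (-1 : ℤ) • w₂ + Ω (Ω w₂) = 0 := by
    calc _ = (Ω w₁ - w₂ + -Ω (Ω w₁) - -Ω (Ω w₂)) + (Ω (Ω w₁) + Ω w₁ + w₁) := by abel
      _ = 0 := by rw [e1, hΩ, add_zero]
  have k₂ : (-1 : ℤ) • w₁ + (-2 : ℤ) • Ω w₁ + ((1 : ℤ) • w₂ + (-1 : ℤ) • Ω w₂) = 0 := by
    calc _ = (Ω (Ω w₁) + w₂ + -Ω w₁ + -Ω w₂) - (Ω (Ω w₁) + Ω w₁ + w₁) := by abel
      _ = 0 := by rw [e2, hΩ, sub_zero]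
  have z₂ : w₂ = 0 := eq_zero_of_omega htf Ω hΩ (a := -1) (b := -2) (Or.inl (by norm_num)) (by
    calc (-1 : ℤ) • w₂ + (-2 : ℤ) • Ω w₂ = ((1 : ℤ) • w₁ + (2 : ℤ) • Ω w₁ +
          (-1 : ℤ) • w₂ + Ω (Ω w₂)) +
        ((-1 : ℤ) • w₁ + (-2 : ℤ) • Ω w₁ + ((1 : ℤ) • w₂ + (-1 : ℤ) • Ω w₂)) -
        (Ω (Ω w₂) + Ω w₂ + w₂) := by abel
      _ = 0 := by rw [k₁, k₂, hΩ, add_zero, sub_zero])
  have z₁ : w₁ = 0 := eq_zero_of_omega htf Ω hΩ (a := -1) (b := -2) (Or.inl (by norm_num)) (by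
    rw [z₂, map_zero, smul_zero, smul_zero, add_zero, add_zero] at k₂
    exact k₂)
  have z₃ : w₃ = 0 := by rw [e3', z₁, neg_zero]
  have z₄ : w₄ = 0 := by rw [e4', z₂, neg_zero]
  have key : ∀ {v : G} {a b : ℤ}, v ≠ 0 → a • v + b • Ω v = 0 → a = 0 ∧ b = 0 := fun {v a b} hv h => by
    by_contra hab
    exact hv (eq_zero_of_omega htf Ω hΩ (not_and_or.1 hab) h)
  obtain ⟨g0, g1⟩ := key n₁ z₁
  obtain ⟨g2, g3⟩ := key n₂ z₂
  obtain ⟨g4, g5⟩ := key n₃ z₃
  obtain ⟨g6, g7⟩ := key n₄ z₄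
  intro i
  fin_cases i
  exacts [g0, g1, g2, g3, g4, g5, g6, g7]

variable {k : Type*} [Field k]

/-- `T ↦ a T` on `k[T]`. -/
def scaleHom (a : k) : k[X] →+* k[X] := (Polynomial.aeval (Polynomial.C a * X)).toRingHom

theorem scaleHom_injective {a : k} (ha : a ≠ 0) : Function.Injective (scaleHom a) := by
  refine (injective_iff_map_eq_zero _).2 fun p hp => ?_
  have hp' : p.comp (Polynomial.C a * X) = 0 := hp
  rcases comp_eq_zero_iff.1 hp' with h | ⟨-, h⟩
  · exact h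
  · have := congrArg natDegree h
    rw [natDegree_C_mul_X a ha, natDegree_C] at this
    omega

/-- `T ↦ a T` on `k(T)`. -/
def scaleRat (a : k) (ha : a ≠ 0) : RatFunc k →+* RatFunc k :=
  RatFunc.mapRingHom (scaleHom a)
    (nonZeroDivisors_le_comap_nonZeroDivisors_of_injective _ (scaleHom_injective ha))

theorem scaleRat_algebraMap (a : k) (ha : a ≠ 0) (p : k[X]) :
    scaleRat a ha (algebraMap k[X] (RatFunc k) p) =
      algebraMap k[X] (RatFunc k) (p.comp (Polynomial.C a * X)) := by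
  simp [scaleRat, scaleHom, RatFunc.coe_mapRingHom_eq_coe_map, RatFunc.map_apply,
    RatFunc.num_algebraMap, RatFunc.denom_algebraMap, Polynomial.comp, Polynomial.aeval_def]

/-- `x ↦ ω x`. -/
def omegaChange {ω : k} (hω : ω ≠ 0) : VariableChange (RatFunc k) :=
  ⟨Units.mk0 (algebraMap k (RatFunc k) (ω ^ 2)) ((_root_.map_ne_zero _).2 (pow_ne_zero 2 hω)), 0, 0, 0⟩

theorem omegaChange_smul {ω : k} (hω : ω ≠ 0) (h3 : ω ^ 3 = 1) (t : RatFunc k) :
    omegaChange hω • cubicCurve 0 0 t = cubicCurve 0 0 t := by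
  have h : (algebraMap k (RatFunc k) ω ^ 2) ^ 6 = 1 := by
    rw [← map_pow, ← map_pow, ← pow_mul, show 2 * 6 = 3 * 4 by norm_num, pow_mul, h3, one_pow, map_one]
  rw [RatFunc.algebraMap_eq_C] at h
  ext <;> simp [omegaChange, RatFunc.algebraMap_eq_C, variableChange_a₁, variableChange_a₂, variableChange_a₃,
    variableChange_a₄, variableChange_a₆, h]

variable [IsAlgClosed k] [CharZero k]

/-- `T⁶ + 1`. -/
def shiodaPoly (k : Type*) [Field k] : k[X] := X ^ 6 + 1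

theorem shiodaPoly_natDegree : (shiodaPoly k).natDegree = 6 := by
  rw [shiodaPoly, ← C_1, natDegree_X_pow_add_C]

theorem squarefree_shiodaPoly : Squarefree (shiodaPoly k) := by
  refine Separable.squarefree ?_
  rw [shiodaPoly, show (1 : k[X]) = -Polynomial.C (-1) by rw [map_neg, map_one, neg_neg],
    ← sub_eq_add_neg]
  exact separable_X_pow_sub_C (-1 : k) (by norm_num) (by norm_num)

/-- **Eight independent points.** -/
theorem exists_eight_independent :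
    ∃ Q : Fin 8 → (mordellRat (shiodaPoly k)).toAffine.Point, LinearIndependent ℤ Q := by
  set f := shiodaPoly k
  have hf : f ≠ 0 := squarefree_shiodaPoly.ne_zero
  have hd : 0 < f.natDegree := by rw [shiodaPoly_natDegree]; norm_num
  haveI := isElliptic_mordellRat hf
  set E := mordellRat f
  set t := algebraMap k[X] (RatFunc k) f with ht
  haveI : NeZero ((6 : ℕ) : k) := ⟨by norm_num⟩
  obtain ⟨ζ, hζ⟩ := HasEnoughRootsOfUnity.exists_primitiveRoot k 6
  have hζ0 : ζ ≠ 0 := hζ.ne_zero (by norm_num)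
  have hζ6 : ζ ^ 6 = 1 := hζ.pow_eq_one
  have hζ3 : ζ ^ 3 = -1 := by
    have h2 : (ζ ^ 3) ^ 2 = 1 := by rw [← pow_mul]; exact hζ6
    refine (sq_eq_one_iff.1 h2).resolve_left fun h => ?_
    exact hζ.pow_ne_one_of_pos_of_lt (by norm_num : (3 : ℕ) ≠ 0) (by norm_num) h
  set ω := ζ ^ 2 with hωdef
  have hω0 : ω ≠ 0 := pow_ne_zero 2 hζ0
  have hω3 : ω ^ 3 = 1 := by rw [hωdef, ← pow_mul]; exact hζ6
  have hω1 : ω ≠ 1 := hζ.pow_ne_one_of_pos_of_lt (by norm_num : (2 : ℕ) ≠ 0) (by norm_num)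
  have hωsum : ω ^ 2 + ω + 1 = 0 := by
    have : (ω - 1) * (ω ^ 2 + ω + 1) = 0 := by linear_combination hω3
    exact (mul_eq_zero.1 this).resolve_left (sub_ne_zero.2 hω1)
  have hs : E.map (scaleRat ζ hζ0) = E := by
    have h : scaleRat ζ hζ0 t = t := by
      rw [ht, scaleRat_algebraMap]
      simp [f, shiodaPoly, mul_pow, ← map_pow, hζ6]
    simp [E, mordellRat, cubicCurve, WeierstrassCurve.map, ← ht, h]
  let σ : E.toAffine.Point →+ E.toAffine.Point := pointMap (scaleRat ζ hζ0) hs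
  let Ω : E.toAffine.Point →+ E.toAffine.Point :=
    (FA.Frob.vcEquiv (omegaChange hω0) (omegaChange_smul hω0 hω3 t)).toAddMonoidHom
  set cc := algebraMap k (RatFunc k) with hcc
  have hns : ∀ {x y : RatFunc k}, y ^ 2 = x ^ 3 + t → E.toAffine.Nonsingular x y := fun h =>
    Affine.equation_iff_nonsingular.mp (cubicCurve_equation.2 (by linear_combination h))
  have heq : ∀ {x y : RatFunc k}, E.toAffine.Nonsingular x y → y ^ 2 = x ^ 3 + t := fun h => by
    have e := cubicCurve_equation.1 h.1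
    linear_combination e
  have hσ : ∀ {x y : RatFunc k} (h : E.toAffine.Nonsingular x y),
      ∃ h', σ (.some x y h) = .some (scaleRat ζ hζ0 x) (scaleRat ζ hζ0 y) h' := fun h =>
    ⟨_, pointMap_some _ hs h⟩
  have hΩeval : ∀ {x y : RatFunc k} (h : E.toAffine.Nonsingular x y),
      ∃ h', Ω (.some x y h) = .some (cc ω * x) y h' := fun {x y} h => by
    refine ⟨hns (by rw [mul_pow, ← map_pow, hω3, map_one, one_mul]; exact heq h), ?_⟩
    refine ((FA.Frob.vcEquiv_some _ _ h).trans ?_)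
    rw [Affine.Point.some.injEq]
    refine ⟨?_, ?_⟩
    · simp only [FA.Frob.vcX, omegaChange, Units.val_mk0, add_zero]
      rw [← map_pow, ← pow_mul, show (2 * 2) = 3 + 1 from rfl, pow_succ, hω3, one_mul]
    · simp only [FA.Frob.vcY, omegaChange, Units.val_mk0, add_zero, zero_mul]
      rw [← map_pow, ← pow_mul, show (2 * 3) = 3 * 2 from rfl, pow_mul, hω3, one_pow, map_one, one_mul]
  have hx0 : ∀ {x y : RatFunc k}, E.toAffine.Nonsingular x y → x ≠ 0 := fun {x y} h e => by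
    subst e
    exact not_root_of_squarefree squarefree_shiodaPoly hd le_rfl y
      ((heq h).trans (by rw [zero_pow three_ne_zero, zero_add]))
  have hscale_cc : ∀ a : k, scaleRat ζ hζ0 (cc a) = cc a := fun a => by
    rw [hcc, IsScalarTower.algebraMap_apply k k[X] (RatFunc k), Polynomial.algebraMap_eq,
      scaleRat_algebraMap, C_comp]
  have hcomm : ∀ P, σ (Ω P) = Ω (σ P) := by
    rintro (_ | ⟨x, y, h⟩)
    · rw [← Affine.Point.zero_def, map_zero, map_zero, map_zero]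
    · obtain ⟨h1, e1⟩ := hΩeval h
      obtain ⟨h2, e2⟩ := hσ h
      obtain ⟨h3, e3⟩ := hσ h1
      obtain ⟨h4, e4⟩ := hΩeval h2
      rw [e1, e2, e3, e4, Affine.Point.some.injEq]
      exact ⟨by rw [map_mul, hscale_cc], rfl⟩
  have hΩ : ∀ P, Ω (Ω P) + Ω P + P = 0 := by
    rintro (_ | ⟨x, y, h⟩)
    · rw [← Affine.Point.zero_def, map_zero, map_zero, add_zero, add_zero]
    · obtain ⟨h1, e1⟩ := hΩeval h
      obtain ⟨h2, e2⟩ := hΩeval h1
      rw [e1, e2, add_assoc]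
      have hne : cc ω * x ≠ x := fun e => hω1 (cc.injective (by
        rw [map_one]; exact mul_right_cancel₀ (hx0 h) (e.trans (one_mul x).symm)))
      rw [Affine.Point.add_of_X_ne hne, add_eq_zero_iff_eq_neg, Affine.Point.neg_some,
        Affine.Point.some.injEq]
      have hsl : E.toAffine.slope (cc ω * x) x y y = 0 := by
        rw [Affine.slope_of_X_ne hne, sub_self, zero_div]
      refine ⟨?_, ?_⟩
      · rw [hsl]
        simp only [Affine.addX, E]
        have := congrArg cc hωsum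
        simp only [map_add, map_pow, map_one, map_zero] at this
        linear_combination x * this
      · rw [hsl]
        simp [E, Affine.addY, Affine.negAddY, Affine.negY]
  -- the explicit sections
  set τ := algebraMap k[X] (RatFunc k) X with hτ
  have htval : t = τ ^ 6 + 1 := by rw [ht, hτ]; simp [f, shiodaPoly]
  have hστ : scaleRat ζ hζ0 τ = cc ζ * τ := by
    rw [hτ, scaleRat_algebraMap, X_comp, map_mul, hcc,
      IsScalarTower.algebraMap_apply k k[X] (RatFunc k), Polynomial.algebraMap_eq]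
  obtain ⟨a, ha⟩ := IsAlgClosed.exists_pow_nat_eq (2 : k) (by norm_num : 0 < 3)
  have n1 := hns (x := -τ ^ 2) (y := 1) (by rw [htval]; ring)
  have n2 := hns (x := -1) (y := τ ^ 3) (by rw [htval]; ring)
  have hca : cc a ^ 3 = 2 := by rw [← map_pow, ha, map_ofNat]
  have n3 := hns (x := cc a * τ) (y := τ ^ 3 + 1) (by
    rw [htval, mul_pow, hca]; ring)
  set P₁ : E.toAffine.Point := .some _ _ n1
  set P₂ : E.toAffine.Point := .some _ _ n2
  set P₃ : E.toAffine.Point := .some _ _ n3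
  have q1 : σ P₁ = Ω P₁ := by
    obtain ⟨h1, e1⟩ := hσ n1
    obtain ⟨h2, e2⟩ := hΩeval n1
    rw [e1, e2, Affine.Point.some.injEq]
    exact ⟨by rw [map_neg, map_pow, hστ, hωdef, map_pow]; ring, by rw [map_one]⟩
  have hcζ3 : cc ζ ^ 3 = -1 := by rw [← map_pow, hζ3, map_neg, map_one]
  have q2 : σ P₂ = -P₂ := by
    obtain ⟨h1, e1⟩ := hσ n2
    rw [e1, Affine.Point.neg_some, Affine.Point.some.injEq]
    refine ⟨by rw [map_neg, map_one], ?_⟩
    rw [map_pow, hστ, cubicCurve_negY, mul_pow, hcζ3]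
    ring
  obtain ⟨hA, eA⟩ := hσ n3
  have q3 : σ (σ P₃) = Ω P₃ := by
    obtain ⟨h1, e1⟩ := hσ hA
    obtain ⟨h2, e2⟩ := hΩeval n3
    rw [eA, e1, e2, Affine.Point.some.injEq]
    constructor
    · simp only [map_mul, hscale_cc, hστ, hωdef, map_pow]; ring
    · simp only [map_add, map_pow, map_one, hστ, map_mul, hscale_cc]
      linear_combination τ ^ 3 * (cc ζ ^ 3 - 1) * hcζ3
  have h3Ω : ∀ x, Ω (Ω (Ω x)) = x := fun x => by
    have a := hΩ (Ω x)
    have b := hΩ x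
    calc Ω (Ω (Ω x)) = (Ω (Ω (Ω x)) + Ω (Ω x) + Ω x) - (Ω (Ω x) + Ω x + x) + x := by abel
      _ = x := by rw [a, b]; abel
  have q4 : σ (σ P₃ + Ω (Ω P₃)) = Ω (Ω (σ P₃ + Ω (Ω P₃))) := by
    simp only [map_add, hcomm, q3, h3Ω]
    abel
  have q5 : σ (σ P₃ - Ω (Ω P₃)) = -Ω (Ω (σ P₃ - Ω (Ω P₃))) := by
    simp only [map_sub, hcomm, q3, h3Ω]
    abel
  obtain ⟨hB, eB⟩ := hΩeval n3
  obtain ⟨hB', eB'⟩ := hΩeval hB
  have h20 : (2 : RatFunc k) ≠ 0 := FA.NeronSpecialisation.two_ne_zero_ratFunc two_ne_zero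
  have hτ0 : τ ≠ 0 := RatFunc.algebraMap_ne_zero X_ne_zero
  have hy : scaleRat ζ hζ0 (τ ^ 3 + 1) = -τ ^ 3 + 1 := by
    rw [map_add, map_pow, map_one, hστ, mul_pow, hcζ3]; ring
  have n4 : σ P₃ + Ω (Ω P₃) ≠ 0 := fun e => by
    rw [eA, eB, eB', add_eq_zero_iff_eq_neg, Affine.Point.neg_some, Affine.Point.some.injEq] at e
    have := e.2
    rw [hy, cubicCurve_negY] at this
    exact h20 (by linear_combination this)
  have n5 : σ P₃ - Ω (Ω P₃) ≠ 0 := fun e => by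
    rw [sub_eq_zero, eA, eB, eB', Affine.Point.some.injEq] at e
    have := e.2
    rw [hy] at this
    exact mul_ne_zero h20 (pow_ne_zero 3 hτ0) (by linear_combination -this)
  exact ⟨_, linearIndependent_eigen (fun x hx => torsion_free squarefree_shiodaPoly hd hx) σ Ω hcomm hΩ
    q1 q2 q4 q5 (Affine.Point.some_ne_zero _) (Affine.Point.some_ne_zero _) n4 n5⟩

/-- **The rank is exactly eight.** -/
theorem finrank_shioda : Module.finrank ℤ (mordellRat (shiodaPoly k)).toAffine.Point = 8 := by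
  have hd : 0 < (shiodaPoly k).natDegree := by rw [shiodaPoly_natDegree]; norm_num
  haveI := isElliptic_mordellRat (squarefree_shiodaPoly (k := k)).ne_zero
  haveI := fg_points (squarefree_shiodaPoly (k := k)) hd
  haveI : Module.Finite ℤ (mordellRat (shiodaPoly k)).toAffine.Point :=
    Module.Finite.iff_addGroup_fg.mpr inferInstance
  have hle := rank_le (f := shiodaPoly k) (m := 1) one_pos (by rw [shiodaPoly_natDegree])
    squarefree_shiodaPoly (by rw [shiodaPoly_natDegree]; norm_num)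
  obtain ⟨Q, hQ⟩ := exists_eight_independent (k := k)
  have hge := hQ.fintype_card_le_finrank
  rw [Fintype.card_fin] at hge
  omega

end FA.MordellSurface
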