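import Fermat.Agent.CubicDescentRank.Descent
import Fermat.Agent.EC.TorsionCard
import Fermat.Agent.LangNeron.FiniteGen
import Mathlib.FieldTheory.IsAlgClosed.AlgebraicClosure

/-!
# No torsion on `y² = x³ + f`

Over an algebraic closure of `k(T)` the curve is constant, so its torsion has constant coordinates:
`x³ / f` is constant, impossible for squarefree `f` unless `x = 0` and `f` is a square.
-/

set_option autoImplicit false
set_option linter.unusedSectionVars false
set_option linter.style.haveILetI false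

noncomputable section

open Polynomial WeierstrassCurve FA.FunctionFieldMW
open FA.FunctionFieldRank (pointMap pointMap_some pointMap_injective)
open scoped Classical

namespace FA.MordellSurface

variable {k : Type*} [Field k] [IsAlgClosed k] [CharZero k]

/-- `y² = x³ + f` over `k(T)`. -/
abbrev mordellRat (f : k[X]) : WeierstrassCurve (RatFunc k) :=
  cubicCurve 0 0 (algebraMap k[X] (RatFunc k) f)

theorem not_root_of_squarefree {f : k[X]} (hf : Squarefree f) (hd : 0 < f.natDegree) {n : ℕ}
    (hn : 2 ≤ n) (r : RatFunc k) : r ^ n ≠ algebraMap k[X] (RatFunc k) f := fun h => by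
  obtain ⟨P, rfl⟩ : ∃ P, algebraMap k[X] (RatFunc k) P = r :=
    IsIntegrallyClosed.exists_algebraMap_eq_of_isIntegral_pow (R := k[X]) (n := n) (by omega)
      (h ▸ isIntegral_algebraMap)
  rw [← map_pow] at h
  have e := RatFunc.algebraMap_injective k h
  have hu : IsUnit P := hf P (e ▸ by rw [← sq]; exact pow_dvd_pow P hn)
  rw [← e, natDegree_pow, natDegree_eq_zero_of_isUnit hu, mul_zero] at hd
  omega

theorem isElliptic_mordellRat {f : k[X]} (hf : f ≠ 0) : (mordellRat f).IsElliptic := by
  rw [WeierstrassCurve.isElliptic_iff, isUnit_iff_ne_zero]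
  have h : (mordellRat f).Δ = -432 * algebraMap k[X] (RatFunc k) f ^ 2 := by
    simp only [WeierstrassCurve.Δ, WeierstrassCurve.b₂, WeierstrassCurve.b₄,
      WeierstrassCurve.b₆, WeierstrassCurve.b₈]
    ring
  rw [h]
  refine mul_ne_zero ?_ (pow_ne_zero _ (RatFunc.algebraMap_ne_zero hf))
  intro e
  exact (show (-432 : k) ≠ 0 by norm_num) ((algebraMap k (RatFunc k)).injective
    (by rw [map_neg, map_ofNat, map_zero]; exact e))

/-- **No torsion.** -/
theorem torsion_free {f : k[X]} (hf : Squarefree f) (hd : 0 < f.natDegree)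
    {P : (mordellRat f).toAffine.Point} (hP : IsOfFinAddOrder P) : P = 0 := by
  haveI := isElliptic_mordellRat hf.ne_zero
  obtain ⟨n, hn0, hn⟩ := isOfFinAddOrder_iff_nsmul_eq_zero.1 hP
  rcases P with _ | ⟨x, y, h⟩
  · rfl
  exfalso
  set M := AlgebraicClosure (RatFunc k)
  set j := algebraMap (RatFunc k) M
  let φ : k →+* M := j.comp (algebraMap k (RatFunc k))
  obtain ⟨u, hu⟩ := IsAlgClosed.exists_pow_nat_eq (j (algebraMap k[X] (RatFunc k) f))
    (by norm_num : 0 < 6)
  have hu0 : u ≠ 0 := fun e => by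
    rw [e, zero_pow (by norm_num), eq_comm, map_eq_zero] at hu
    exact RatFunc.algebraMap_ne_zero hf.ne_zero hu
  set E₀ : WeierstrassCurve k := cubicCurve 0 0 1
  haveI : E₀.IsElliptic := by
    rw [WeierstrassCurve.isElliptic_iff, isUnit_iff_ne_zero]
    simp [E₀, WeierstrassCurve.Δ, WeierstrassCurve.b₂, WeierstrassCurve.b₄, WeierstrassCurve.b₆,
      WeierstrassCurve.b₈]
  let C : VariableChange M := ⟨Units.mk0 u hu0, 0, 0, 0⟩
  have hC : C • (mordellRat f).map j = E₀.map φ := by
    ext <;> simp [C, E₀, WeierstrassCurve.map, variableChange_a₁, variableChange_a₂,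
      variableChange_a₃, variableChange_a₄, variableChange_a₆, φ]
    rw [← hu]
    exact inv_mul_cancel₀ (pow_ne_zero 6 hu0)
  haveI : (E₀.map φ).IsElliptic := inferInstance
  set Q := (FA.Frob.vcEquiv C hC).symm (pointMap j rfl (.some x y h))
  have hQ : n • Q = 0 := by
    rw [← map_nsmul, ← map_nsmul, hn, map_zero, map_zero]
  have hnk : (n : k) ≠ 0 := Nat.cast_ne_zero.2 hn0.ne'
  have hnM : (n : M) ≠ 0 := fun e => hnk (φ.injective (by rw [map_natCast, map_zero]; exact e))
  have h1 := FA.EC.natCard_nsmul_eq_zero E₀ hnk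
  have h2 := FA.EC.natCard_nsmul_eq_zero (E₀.map φ) hnM
  let ι : {R : E₀.toAffine.Point // n • R = 0} → {R : (E₀.map φ).toAffine.Point // n • R = 0} :=
    fun R => ⟨pointMap φ rfl R.1, by rw [← map_nsmul, R.2, map_zero]⟩
  have hι : Function.Injective ι := fun R S e =>
    Subtype.ext (pointMap_injective φ rfl (congrArg Subtype.val e))
  have hpos : n ^ 2 ≠ 0 := pow_ne_zero 2 hn0.ne'
  haveI : Finite {R : (E₀.map φ).toAffine.Point // n • R = 0} :=
    Nat.finite_of_card_ne_zero (by rw [h2]; exact hpos)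
  obtain ⟨⟨R, hR0⟩, hR⟩ := (hι.bijective_of_nat_card_le (h2.le.trans h1.ge)).2 ⟨Q, hQ⟩
  have hR' : FA.Frob.vcEquiv C hC (pointMap φ rfl R) = pointMap j rfl (.some x y h) := by
    rw [show pointMap φ rfl R = Q from congrArg Subtype.val hR]
    exact (FA.Frob.vcEquiv C hC).apply_symm_apply _
  rcases R with _ | ⟨c, d, hcd⟩
  · rw [← Affine.Point.zero_def, map_zero, map_zero, pointMap_some] at hR'
    exact Affine.Point.some_ne_zero _ hR'.symm
  rw [pointMap_some, pointMap_some, FA.Frob.vcEquiv_some, Affine.Point.some.injEq] at hR'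
  have hx : j x = u ^ 2 * φ c := by
    rw [← hR'.1]; simp [FA.Frob.vcX, C]
  have hx3 : x ^ 3 = algebraMap k (RatFunc k) (c ^ 3) * algebraMap k[X] (RatFunc k) f := by
    apply j.injective
    rw [map_pow, hx, map_mul j, map_pow (algebraMap k (RatFunc k)), map_pow j, ← hu]
    show (u ^ 2 * φ c) ^ 3 = φ c ^ 3 * u ^ 6
    ring
  by_cases hc : c = 0
  · rw [hc, zero_pow three_ne_zero, map_zero, zero_mul, pow_eq_zero_iff three_ne_zero] at hx3
    have e := cubicCurve_equation.1 h.1
    rw [hx3] at e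
    exact not_root_of_squarefree hf hd le_rfl y (by linear_combination e)
  · refine not_root_of_squarefree hf hd (by norm_num : 2 ≤ 3)
      (x / algebraMap k (RatFunc k) c) ?_
    have hc' : algebraMap k (RatFunc k) c ≠ 0 := (_root_.map_ne_zero _).2 hc
    rw [div_pow, div_eq_iff (pow_ne_zero 3 hc'), hx3, map_pow, mul_comm]

/-- The curve is no constant curve: those have points of order two. -/
theorem fg_points {f : k[X]} (hf : Squarefree f) (hd : 0 < f.natDegree) :
    AddGroup.FG (mordellRat f).toAffine.Point := by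
  haveI := isElliptic_mordellRat hf.ne_zero
  refine FA.LangNeron.fg_point_ratFunc _ ?_
  rintro ⟨E₀, C₀, hC₀⟩
  haveI : E₀.IsElliptic := (WeierstrassCurve.isElliptic_iff _).2 (isUnit_iff_ne_zero.2 fun e => by
    have h1 := (C₀ • mordellRat f).isUnit_Δ.ne_zero
    rw [hC₀, WeierstrassCurve.map_Δ, e, map_zero] at h1
    exact h1 rfl)
  have h4 := FA.EC.natCard_nsmul_eq_zero E₀ (n := 2) (by exact_mod_cast (two_ne_zero (α := k)))
  haveI : Finite {R : E₀.toAffine.Point // 2 • R = 0} :=
    Nat.finite_of_card_ne_zero (by rw [h4]; norm_num)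
  haveI : Nontrivial {R : E₀.toAffine.Point // 2 • R = 0} :=
    Finite.one_lt_card_iff_nontrivial.1 (by rw [h4]; norm_num)
  obtain ⟨R, hR⟩ := exists_ne (⟨0, nsmul_zero 2⟩ : {R : E₀.toAffine.Point // 2 • R = 0})
  set ψ := (FA.Frob.vcEquiv C₀ hC₀).toAddMonoidHom.comp
    (pointMap (algebraMap k (RatFunc k)) (W := E₀) rfl)
  have hψ : Function.Injective ψ :=
    (FA.Frob.vcEquiv C₀ hC₀).injective.comp (pointMap_injective _ _)
  have h0 := torsion_free hf hd (P := ψ R.1)
    (isOfFinAddOrder_iff_nsmul_eq_zero.2 ⟨2, two_pos, by rw [← map_nsmul, R.2, map_zero]⟩)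
  exact hR (Subtype.ext (hψ (by rw [h0, map_zero])))

end FA.MordellSurface
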